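import Fermat.Statements.S54

set_option autoImplicit false

open Polynomial

namespace Fermat.Agent.S54

/-- On a free module of rank `2`, the trace is read off from the characteristic polynomial. -/
theorem trace_eq_of_charpoly_eq {T : Type*} [CommRing T] [Nontrivial T] {V : Type*}
    [AddCommGroup V] [Module T V] [Module.Free T V] [Module.Finite T V]
    (hV : Module.finrank T V = 2) (f : V →ₗ[T] V) (a b : T)
    (h : LinearMap.charpoly f = X ^ 2 - C a * X + C b) :
    LinearMap.trace T V f = a := by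
  classical
  let bas := Module.finBasis T V
  have h1 : LinearMap.trace T V f = ((LinearMap.toMatrix bas bas) f).trace :=
    LinearMap.trace_eq_matrix_trace T bas f
  have hne : Nonempty (Fin (Module.finrank T V)) := by
    rw [hV]; exact ⟨0⟩
  rw [h1, Matrix.trace_eq_neg_charpoly_coeff, LinearMap.charpoly_toMatrix, h, Fintype.card_fin, hV]
  simp [coeff_C]

/-- The trace of a `GaloisRepAdic` read off from the characteristic polynomial. -/
theorem galoisRepAdic_trace_eq_of_charpoly {A : Type} [CommRing A] [IsLocalRing A]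
    (ρ : GaloisRepAdic A) (σ : AlgebraicClosure ℚ ≃ₐ[ℚ] AlgebraicClosure ℚ) (a b : A)
    (h : LinearMap.charpoly (ρ.ρ σ) = X ^ 2 - C a * X + C b) :
    ρ.trace σ = a :=
  trace_eq_of_charpoly_eq ρ.finrank_eq (ρ.ρ σ) a b h

/-- Traces commute with base change along a local homomorphism. -/
theorem trace_baseChangeAlong {A B : Type} [CommRing A] [IsLocalRing A] [CommRing B]
    [IsLocalRing B] (φ : A →+* B) (hφ : IsLocalHom φ) (ρ : GaloisRepAdic A)
    (σ : AlgebraicClosure ℚ ≃ₐ[ℚ] AlgebraicClosure ℚ) :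
    (ρ.baseChangeAlong φ hφ).trace σ = φ (ρ.trace σ) := by
  let _ : Algebra A B := φ.toAlgebra
  exact LinearMap.trace_baseChange (ρ.ρ σ) B

/-- Equivalent representations have the same traces. -/
theorem trace_eq_of_equiv {A : Type} [CommRing A] [IsLocalRing A] {ρ₁ ρ₂ : GaloisRepAdic A}
    (e : GaloisRepAdic.Equiv ρ₁ ρ₂) (σ : AlgebraicClosure ℚ ≃ₐ[ℚ] AlgebraicClosure ℚ) :
    ρ₁.trace σ = ρ₂.trace σ := by
  have hconj : ρ₂.ρ σ = e.toLinearEquiv.conj (ρ₁.ρ σ) := by
    apply LinearMap.ext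
    intro y
    rw [LinearEquiv.conj_apply_apply, e.map_apply, LinearEquiv.apply_symm_apply]
  unfold GaloisRepAdic.trace
  rw [hconj, LinearMap.trace_conj']

theorem trace_eq_of_isEquiv {A : Type} [CommRing A] [IsLocalRing A] {ρ₁ ρ₂ : GaloisRepAdic A}
    (h : ρ₁.IsEquiv ρ₂) (σ : AlgebraicClosure ℚ ≃ₐ[ℚ] AlgebraicClosure ℚ) :
    ρ₁.trace σ = ρ₂.trace σ :=
  h.elim fun e => trace_eq_of_equiv e σ

/-- If the primes of `N` all lie in `S`, the Hecke algebra away from `S` is generated by the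
`T_ℓ`: every subring containing the images of the `T_ℓ` contains the whole image. -/
theorem map_mem_of_forall_T_mem {N : ℕ} [NeZero N] {S : Set ℕ} {T : Type} [CommRing T]
    (π : CuspForm.heckeAlgebra N 2 S →+* T)
    (hS : ∀ q : ℕ, q.Prime → q ∣ N → q ∈ S) (R' : Subring T)
    (hT : ∀ (ℓ : ℕ) (hℓ : ℓ.Prime) (hℓN : ¬ ℓ ∣ N) (hℓS : ℓ ∉ S),
      π (CuspForm.heckeAlgebra.T hℓ hℓN hℓS) ∈ R')
    (t : CuspForm.heckeAlgebra N 2 S) : π t ∈ R' := by
  obtain ⟨x, hx⟩ := t
  induction hx using Algebra.adjoin_induction with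
  | mem x hx =>
    rcases hx with ⟨ℓ, hℓ, hℓN, hℓS, rfl⟩ | ⟨q, hqN, hq, hqS, rfl⟩
    · exact hT ℓ hℓ hℓN hℓS
    · exact absurd (hS q hq hqN) hqS
  | algebraMap r =>
    have : (⟨algebraMap ℤ _ r, Subalgebra.algebraMap_mem _ r⟩ : CuspForm.heckeAlgebra N 2 S)
        = ((r : ℤ) : CuspForm.heckeAlgebra N 2 S) := by
      apply Subtype.ext
      simp
    rw [this, map_intCast]
    exact intCast_mem R' r
  | add x y hx hy ihx ihy =>
    have : (⟨x + y, Subalgebra.add_mem _ hx hy⟩ : CuspForm.heckeAlgebra N 2 S)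
        = ⟨x, hx⟩ + ⟨y, hy⟩ := rfl
    rw [this, map_add]
    exact R'.add_mem ihx ihy
  | mul x y hx hy ihx ihy =>
    have : (⟨x * y, Subalgebra.mul_mem _ hx hy⟩ : CuspForm.heckeAlgebra N 2 S)
        = ⟨x, hx⟩ * ⟨y, hy⟩ := rfl
    rw [this, map_mul]
    exact R'.mul_mem ihx ihy

end Fermat.Agent.S54
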