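import Fermat.Statements.S54
import Fermat.Agent.S54.TraceLemmas

set_option autoImplicit false

open Polynomial

namespace Fermat.Agent.S54

/-- `S54` assuming the existence of Frobenius elements at every prime. -/
theorem result_of_exists_frobenius
    (hFrob : ∀ ℓ : ℕ, ℓ.Prime → ∃ (A : ValuationSubring (AlgebraicClosure ℚ))
      (σ : AlgebraicClosure ℚ ≃ₐ[ℚ] AlgebraicClosure ℚ), A.LiesOverPrime ℓ ∧ A.IsFrobeniusAt σ ℓ)
    {𝒪 : Type} [CommRing 𝒪] [IsDomain 𝒪] [IsDiscreteValuationRing 𝒪]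
    [IsAdicComplete (IsLocalRing.maximalIdeal 𝒪) 𝒪]
    {ρbar : ResidualGaloisRep (IsLocalRing.ResidueField 𝒪)}
    {𝒟 : ∀ ⦃A : Type⦄ [CommRing A] [IsLocalRing A] [Algebra 𝒪 A], GaloisRepAdic A → Prop}
    (D : GaloisRep.DeformationRingData 𝒪 ρbar 𝒟) {N : ℕ} [NeZero N] {S : Set ℕ}
    {θ : CuspForm.heckeAlgebra N 2 S →+* IsLocalRing.ResidueField 𝒪}
    {T : Type} [CommRing T] [IsLocalRing T] [IsNoetherianRing T]
    [IsAdicComplete (IsLocalRing.maximalIdeal T) T] [Algebra 𝒪 T] [IsLocalHom (algebraMap 𝒪 T)]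
    [Module.Finite 𝒪 T] [Module.Free 𝒪 T] (H : CuspForm.HeckeGaloisRepDatum N S 𝒪 θ T)
    (hS : ∀ q : ℕ, q.Prime → q ∣ N → q ∈ S) (h𝒟 : 𝒟 H.ρ)
    (hres : H.ρ.residual.IsEquiv
      (ρbar.baseChangeAlong (IsLocalRing.ResidueField.map (algebraMap 𝒪 T)))) :
    ∃ φ : D.R →ₐ[𝒪] T, Function.Surjective φ ∧ ∃ hφ : IsLocalHom (φ : D.R →+* T),
      (D.ρ.baseChangeAlong (φ : D.R →+* T) hφ).IsEquiv H.ρ := by
  obtain ⟨φ, ⟨hφ, hequiv⟩, -⟩ := D.universal T H.residue_surjective H.ρ h𝒟 hres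
  refine ⟨φ, ?_, hφ, hequiv⟩
  have hrange : ∀ t, H.π t ∈ φ.range.toSubring := by
    refine map_mem_of_forall_T_mem H.π hS _ (fun ℓ hℓ hℓN hℓS => ?_)
    obtain ⟨A, σ, hA, hσ⟩ := hFrob ℓ hℓ
    have hch := H.charpoly_frob ℓ hℓ hℓN hℓS A hA σ hσ
    have htr : H.ρ.trace σ = H.π (CuspForm.heckeAlgebra.T hℓ hℓN hℓS) :=
      galoisRepAdic_trace_eq_of_charpoly H.ρ σ _ _ hch
    have h2 := trace_eq_of_isEquiv hequiv σ
    rw [trace_baseChangeAlong] at h2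
    exact ⟨D.ρ.trace σ, h2.trans htr⟩
  have hle : Algebra.adjoin 𝒪 (Set.range H.π) ≤ φ.range :=
    Algebra.adjoin_le (by rintro _ ⟨t, rfl⟩; exact hrange t)
  rw [H.adjoin_range_π] at hle
  intro x
  exact hle Algebra.mem_top

end Fermat.Agent.S54
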